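/-
S55 engine E1, block ALG (helper957): abstract linear algebra over `𝔽_p` for ALG7/ALG8.
Mathlib only.
-/
import Mathlib

set_option autoImplicit false

namespace Fermat.Agent.S55.E1.H957

/-- A linear map `g` of vector spaces which kills `ker r` factors through `r`. -/
theorem exists_linear_factor {K V V' U : Type} [Field K] [AddCommGroup V] [AddCommGroup V']
    [AddCommGroup U] [Module K V] [Module K V'] [Module K U] (r : V →ₗ[K] V') (g : V →ₗ[K] U)
    (hle : LinearMap.ker r ≤ LinearMap.ker g) : ∃ g' : V' →ₗ[K] U, ∀ x, g' (r x) = g x := by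
  have hrbar : LinearMap.ker ((LinearMap.ker r).liftQ r le_rfl) = ⊥ :=
    Submodule.ker_liftQ_eq_bot _ _ _ le_rfl
  obtain ⟨s, hs⟩ := ((LinearMap.ker r).liftQ r le_rfl).exists_leftInverse_of_injective hrbar
  refine ⟨((LinearMap.ker r).liftQ g hle).comp s, fun x => ?_⟩
  have h1 : s (r x) = (LinearMap.ker r).mkQ x := by
    have := LinearMap.congr_fun hs ((LinearMap.ker r).mkQ x)
    simpa using this
  rw [LinearMap.comp_apply, h1]
  simp

/-- **Factorisation through a map of `𝔽_p`-vector spaces, stated for abelian groups.**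
`V`, `V'` abelian groups killed by a prime `p`, `r : V →+ V'`, `g : V →+ U` killing `ker r`.
Then `g` factors through `r`. -/
theorem exists_factor_of_ker_le (p : ℕ) (hp : p.Prime) {V V' U : Type} [AddCommGroup V]
    [AddCommGroup V'] [AddCommGroup U] (hV : ∀ x : V, p • x = 0) (hV' : ∀ x : V', p • x = 0)
    (r : V →+ V') (g : V →+ U) (h : ∀ x, r x = 0 → g x = 0) :
    ∃ g' : V' →+ U, ∀ x, g' (r x) = g x := by
  have : Fact p.Prime := ⟨hp⟩
  -- the range of `g` is killed by `p`
  have hK : ∀ y : g.range, p • y = 0 := by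
    rintro ⟨y, x, rfl⟩
    apply Subtype.ext
    show p • g x = 0
    rw [← map_nsmul, hV x, map_zero]
  letI i1 : Module (ZMod p) V := AddCommGroup.zmodModule hV
  letI i2 : Module (ZMod p) V' := AddCommGroup.zmodModule hV'
  letI i3 : Module (ZMod p) g.range := AddCommGroup.zmodModule hK
  obtain ⟨g', hg'⟩ := exists_linear_factor (K := ZMod p) (r.toZModLinearMap p)
    (g.rangeRestrict.toZModLinearMap p) (by
      intro x hx
      rw [LinearMap.mem_ker] at hx ⊢
      apply Subtype.ext
      exact h x hx)
  refine ⟨(g.range.subtype).comp g'.toAddMonoidHom, fun x => ?_⟩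
  have := congrArg Subtype.val (hg' x)
  exact this

end Fermat.Agent.S55.E1.H957
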