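/-
S55 engine E1, block ALG, leaf ALG7 (helper957): LOCAL IMAGE.
`alg7_of : ALG1Spec → ALG6Spec → ALG7aSpec → ALG7Spec` (exact Spec of `E1/SpecAlg2.lean`).
-/
import Fermat.Agent.S55.E1.SpecAlg2
import Fermat.Agent.S55.E1.H957.AbsExt
import Fermat.Agent.S55.T.All

set_option autoImplicit false

open CategoryTheory

namespace Fermat.Agent.S55.E1.H957

open Fermat.Agent.S55.E1

variable {G D : Type} [Group G] [Group D]

/-- `⟨f ≫ j, x⟩ = j_* ⟨f, x⟩`. -/
lemma pair_comp {N J C : Rep.{0} ℤ G} (f : homA N J) (j : J ⟶ C) (x : groupCohomology N 1) :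
    pair (f ≫ j) x = (T.coeffMap j 2).hom (pair f x) := by
  unfold pair
  rw [show T.coeffMap (f ≫ j) 2 = T.coeffMap f 2 ≫ T.coeffMap j 2 from
    groupCohomology.map_id_comp f j 2]
  rfl

/-- `H¹(G, N)` is killed by `p` if `N` is. -/
lemma nsmul_H1_eq_zero {N : Rep.{0} ℤ G} (p : ℕ) (hN : ∀ n : N.V, p • n = 0)
    (x : groupCohomology N 1) : p • x = 0 := by
  induction x using groupCohomology.H1_induction_on with
  | h c =>
    rw [← map_nsmul]
    have : p • c = 0 := by
      ext g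
      exact hN (c g)
    rw [this, map_zero]

/-- An element killed by two coprime integers is zero. -/
lemma eq_zero_of_coprime_nsmul {A : Type} [AddCommGroup A] {m n : ℕ} (h : Nat.Coprime m n)
    {x : A} (hm : m • x = 0) (hn : n • x = 0) : x = 0 := by
  have h1 : (Nat.gcd m n : ℤ) = m * Nat.gcdA m n + n * Nat.gcdB m n := Nat.gcd_eq_gcd_ab m n
  rw [h] at h1
  have h2 : ((1 : ℕ) : ℤ) • x = 0 := by
    rw [h1, add_smul, mul_comm, mul_smul, mul_comm (n : ℤ), mul_smul, natCast_zsmul, natCast_zsmul,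
      hm, hn, smul_zero, smul_zero, add_zero]
  simpa using h2

/-- **ALG7 (local image)** from ALG1, ALG6, ALG7a. -/
theorem alg7_of (h1 : ALG1Spec) (h6 : ALG6Spec) (h7a : ALG7aSpec) : ALG7Spec := by
  intro p hp G D _ _ _ _ φ hφ N C γ X γX j hNfin hNp hC hX hT hj χ
  obtain ⟨hδbij, hδnat, h6X⟩ := h6 G D φ hφ N
  obtain ⟨hflat, hcompat⟩ := h6X X
  have hsh : Function.Bijective (sh2 φ X) := H173.shapiroHom_bijective hφ 2 X
  have hV : ∀ x : groupCohomology N 1, p • x = 0 := nsmul_H1_eq_zero p hNp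
  have hVD : ∀ x : groupCohomology (Rep.res φ N) 1, p • x = 0 := nsmul_H1_eq_zero p hNp
  constructor
  · intro hχ
    -- Step 1: pointwise lifts of `χ x` to `p`-torsion classes in `H²(G, J)`
    have step1 : ∀ x, ∃ y : groupCohomology (Rep.coind φ X) 2,
        p • y = 0 ∧ (T.coeffMap j 2).hom y = χ x := by
      intro x
      by_cases hx0 : χ x = 0
      · exact ⟨0, by simp, by rw [map_zero, hx0]⟩
      · have hrx : resAlong φ N 1 x ≠ 0 := fun h => hx0 (hχ x h)
        have hpD : p ∣ Nat.card D := by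
          by_contra hnd
          have hcop : Nat.Coprime p (Nat.card D) := (Nat.Prime.coprime_iff_not_dvd hp).2 hnd
          have h1' := T.All.cardTorsion ℤ D (Rep.res φ N) 1 one_pos (resAlong φ N 1 x)
          have h2' := hVD (resAlong φ N 1 x)
          exact hrx (eq_zero_of_coprime_nsmul hcop h2' h1')
        obtain ⟨u₀, hu₀, hpu₀⟩ := (h7a p hp D X γX hX).2 hpD
        obtain ⟨y₀, hy₀⟩ := hsh.2 u₀
        have hpy₀ : p • y₀ = 0 := hsh.1 (by rw [map_nsmul, hy₀, hpu₀, map_zero])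
        have hy₀ne : y₀ ≠ 0 := fun h => hu₀ (by rw [← hy₀, h, map_zero])
        have hw₁ : (T.coeffMap j 2).hom y₀ ≠ 0 := fun h => hy₀ne (hj y₀ hpy₀ h)
        have hpw₁ : p • (T.coeffMap j 2).hom y₀ = 0 := by rw [← map_nsmul, hpy₀, map_zero]
        have hpχ : p • χ x = 0 := by rw [← map_nsmul, hV x, map_zero]
        obtain ⟨n, hn⟩ := (h7a p hp G C γ hC).1 _ _ hpw₁ hpχ hw₁
        exact ⟨n • y₀, by rw [smul_comm, hpy₀, smul_zero], by rw [map_nsmul, hn]⟩
    choose g₀ hg₀p hg₀ using step1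
    have hinj : ∀ y y' : groupCohomology (Rep.coind φ X) 2, p • y = 0 → p • y' = 0 →
        (T.coeffMap j 2).hom y = (T.coeffMap j 2).hom y' → y = y' := by
      intro y y' hy hy' h
      have := hj (y - y') (by rw [smul_sub, hy, hy', sub_zero]) (by rw [map_sub, h, sub_self])
      exact sub_eq_zero.1 this
    let g : groupCohomology N 1 →+ groupCohomology (Rep.coind φ X) 2 :=
      AddMonoidHom.mk' g₀ (fun a b => hinj _ _ (hg₀p _)
        (by rw [smul_add, hg₀p, hg₀p, add_zero])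
        (by rw [hg₀, map_add, map_add, hg₀, hg₀]))
    have hg : ∀ x, g x = g₀ x := fun _ => rfl
    -- Step 2: factor `sh ∘ g` through `res_φ`
    obtain ⟨χ', hχ'⟩ := exists_factor_of_ker_le p hp hV hVD (resAlong φ N 1).toAddMonoidHom
      ((sh2 φ X).toAddMonoidHom.comp g) (by
        intro x hx
        have h0 : g₀ x = 0 :=
          hinj _ _ (hg₀p x) (by simp) (by rw [hg₀ x, map_zero]; exact hχ x hx)
        show sh2 φ X (g₀ x) = 0
        rw [h0, map_zero])
    -- Step 3: the character `χ_D` of `H²(D, R)`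
    let e := AddEquiv.ofBijective (resδ φ N).toAddMonoidHom hδbij
    let χD : groupCohomology (Rep.res φ (stdR N)) 2 →+ groupCohomology X 2 :=
      χ'.comp e.symm.toAddMonoidHom
    -- Step 4: Tate–Nakayama at `p` for `D`
    letI : Fintype D := Fintype.ofFinite D
    obtain ⟨hRfree, hRfin, -⟩ := h1 G N hNfin
    obtain ⟨hsurj, -⟩ := hT p hp D X γX hX (Rep.res φ (stdR N)) hRfree hRfin
    obtain ⟨f', hf'⟩ := hsurj χD
    obtain ⟨f, hf⟩ := hflat.2 f'
    refine ⟨f, fun x => ?_⟩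
    rw [pair_comp, ← hg₀ x]
    congr 1
    apply hsh.1
    rw [hcompat]
    simp only at hf
    rw [hf]
    show (T.coeffMap f' 2).hom (resδ φ N (resAlong φ N 1 x)) = sh2 φ X (g₀ x)
    rw [hf' _ ⟨1, by rw [pow_one, ← map_nsmul, hVD, map_zero]⟩]
    show χ' (e.symm (resδ φ N (resAlong φ N 1 x))) = _
    have h3 : e.symm (resδ φ N (resAlong φ N 1 x)) = resAlong φ N 1 x := e.symm_apply_apply _
    rw [h3]
    exact hχ' x
  · rintro ⟨f, hf⟩ x hx
    rw [← hf x, pair_comp]
    have h2 : sh2 φ X (pair f x) = 0 := by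
      rw [hcompat, hx]
      unfold pairLoc
      rw [map_zero, map_zero]
    have h3 : pair f x = 0 := hsh.1 (by rw [h2, map_zero])
    rw [h3, map_zero]

end Fermat.Agent.S55.E1.H957
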