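/-
S55 engine E1, block ALG (helper957): ALG7 unconditional.
`alg7 : ALG7Spec` from `H304.alg1`, `H304.alg6`, `H660.alg7a` (all on main).
-/
import Fermat.Agent.S55.E1.H957.Alg7
import Fermat.Agent.S55.E1.H304.Alg1
import Fermat.Agent.S55.E1.H304.Alg6
import Fermat.Agent.S55.E1.H660.Alg7a

set_option autoImplicit false

namespace Fermat.Agent.S55.E1.H957

open Fermat.Agent.S55.E1

/-- **ALG7 (local image)**, unconditional. -/
theorem alg7 : ALG7Spec := alg7_of H304.alg1 H304.alg6 H660.alg7a

end Fermat.Agent.S55.E1.H957
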