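/-
S55 engine E1, block ALG (helper957, sub-architect ALG6–8): ALG6, ALG7, ALG7a, ALG8 unconditional.
`alg8 : ALG8Spec` from `H353.alg8_of`, `H114.alg5`, `H957.alg7`, `H660.alg7a` (all on main).
One import for the consumers of block ALG6–8.
-/
import Fermat.Agent.S55.E1.H957.Alg7Final
import Fermat.Agent.S55.E1.H353.Alg8
import Fermat.Agent.S55.E1.H114.Alg5Final

set_option autoImplicit false

namespace Fermat.Agent.S55.E1.H957

open Fermat.Agent.S55.E1

/-- **ALG6**, unconditional (helper304). -/
theorem alg6 : ALG6Spec := H304.alg6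

/-- **ALG7a**, unconditional (helper660). -/
theorem alg7a : ALG7aSpec := H660.alg7a

/-- **ALG8 (count)**, unconditional. -/
theorem alg8 : ALG8Spec := H353.alg8_of H114.alg5 alg7 alg7a

end Fermat.Agent.S55.E1.H957
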