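/-
S55 engine E1 (helper957): LIM3 in ABSTRACT one-step form — the consumer side of ALG8.

For a finite group `G`, `N`, `C` and local data `φ_i : D_i ↪ G`, `j_i : J_i → C`:
* `locSub j = Σ_i j_i ∘ A(J_i) + res Bc(C) ≤ A(C)`, `TQ j = A(C) ⧸ locSub j` (the group `T_F`);
* `card_TQ` : `T` is finite and `|T| = |Ш¹_fin|` (from ALG8);
For a change of group `π : G' →* G`, `ν : N' ≅ res_π N`, `ι : res_π C ⟶ C'`, `ιJ_i : res_π J_i ⟶ J'_i`
with `ι ∘ j_i = j'_i ∘ ιJ_i` (GD7a):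
* `trA_mem_locSub`, `trT : TQ j →+ TQ j'` (the transition map of the system `T`);
* `isLocTriv_inf` : inflation preserves local triviality;
* `trT_injective` : `tr` is injective on `T` if `inf_ι` is injective on `H²(G, C)[p]` (GD8).
-/
import Fermat.Agent.S55.E1.H957.Alg8Final
import Fermat.Agent.S55.E1.H245.Alg10Pair
import Fermat.Agent.S55.E1.H793.Alg10Comp

set_option autoImplicit false
set_option linter.style.haveILetI false

open CategoryTheory

namespace Fermat.Agent.S55.E1.H957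

open Fermat.Agent.S55.E1

noncomputable section

/-! ## The group `T` -/

section T

variable {G : Type} [Group G] {ι : Type} [Fintype ι] {N C : Rep.{0} ℤ G}
  {J : ι → Rep.{0} ℤ G}

/-- `Σ_i j_i ∘ A(J_i) + res Bc(C)` as a subgroup of `A(C) = Hom_G(R, C)`. -/
def locSub (j : ∀ i, J i ⟶ C) : AddSubgroup (homA N C) :=
  (resBA N C).range ⊔ ⨆ i, (H353.compJ (N := N) (j i)).range

lemma mem_locSub (j : ∀ i, J i ⟶ C) (f : homA N C) : f ∈ locSub j ↔ IsLocSum j f :=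
  (H353.isLocSum_iff j f).symm

/-- `T = A(C) ⧸ (Σ_i j_i ∘ A(J_i) + res Bc(C))`. -/
abbrev TQ (j : ∀ i, J i ⟶ C) : Type := homA N C ⧸ locSub (N := N) j

end T

/-! ## The count -/

section Count

variable {G : Type} [Group G] {ι : Type} [Fintype ι] {Dc : ι → Type} [∀ i, Group (Dc i)]

/-- The pairing restricted to `Ш¹_fin`: `f ↦ ⟨f, ·⟩|_Ш`. -/
def pairSha (φ : ∀ i, Dc i →* G) (N C : Rep.{0} ℤ G) :
    homA N C →+ (shaFin φ N →+ groupCohomology C 2) where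
  toFun f := (H353.pairHom N C f).comp (shaFin φ N).subtype
  map_zero' := by
    ext x
    simp
  map_add' f g := by
    ext x
    simp

omit [Fintype ι] in
lemma pairSha_apply (φ : ∀ i, Dc i →* G) (N C : Rep.{0} ℤ G) (f : homA N C)
    (x : shaFin φ N) : pairSha φ N C f x = pair f x.1 := rfl

/-- **`|T| = |Ш¹_fin|`** from the three conclusions of ALG8. -/
theorem card_TQ_of {p : ℕ} (hp : p.Prime) (φ : ∀ i, Dc i →* G) {N C : Rep.{0} ℤ G}
    (hNp : ∀ n : N.V, p • n = 0)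
    (X : ∀ i, Rep.{0} ℤ (Dc i)) (j : ∀ i, Rep.coind (φ i) (X i) ⟶ C)
    (ha : ∀ f : homA N C, (∀ x, IsLocTriv φ N x → pair f x = 0) ↔ IsLocSum j f)
    (hb : ∀ χ : groupCohomology N 1 →+ groupCohomology C 2,
      ∃ f : homA N C, ∀ x, IsLocTriv φ N x → pair f x = χ x)
    (hfin : Finite (shaFin φ N))
    (hcard : Nat.card (shaFin φ N →+ groupCohomology C 2) = Nat.card (shaFin φ N)) :
    Finite (TQ (N := N) j) ∧ Nat.card (TQ (N := N) j) = Nat.card (shaFin φ N) := by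
  have hV : ∀ x : groupCohomology N 1, p • x = 0 := nsmul_H1_eq_zero p hNp
  have hSha : ∀ x : shaFin φ N, p • x = 0 := fun x => Subtype.ext (hV x.1)
  -- surjectivity of `pairSha`
  have hsurj : Function.Surjective (pairSha φ N C) := by
    intro χ
    obtain ⟨χ', hχ'⟩ := exists_factor_of_ker_le p hp hSha hV (shaFin φ N).subtype χ (by
      intro x hx
      have : x = 0 := Subtype.ext hx
      rw [this, map_zero])
    obtain ⟨f, hf⟩ := hb χ'
    refine ⟨f, ?_⟩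
    ext x
    rw [pairSha_apply, hf x.1 x.2]
    exact hχ' x
  -- kernel of `pairSha`
  have hker : (pairSha φ N C).ker = locSub (N := N) j := by
    ext f
    rw [AddMonoidHom.mem_ker, mem_locSub, ← ha f]
    constructor
    · intro h x hx
      have := DFunLike.congr_fun h (⟨x, hx⟩ : shaFin φ N)
      exact this
    · intro h
      ext x
      exact h x.1 x.2
  have e1 : (homA N C ⧸ (pairSha φ N C).ker) ≃+ (shaFin φ N →+ groupCohomology C 2) :=
    QuotientAddGroup.quotientKerEquivOfSurjective _ hsurj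
  have e2 : TQ (N := N) j ≃+ (homA N C ⧸ (pairSha φ N C).ker) :=
    QuotientAddGroup.quotientAddEquivOfEq hker.symm
  have e := e2.trans e1
  have hfin' : Finite (shaFin φ N →+ groupCohomology C 2) := by
    apply Nat.finite_of_card_ne_zero
    rw [hcard]
    exact Nat.card_ne_zero.2 ⟨⟨0⟩, hfin⟩
  refine ⟨Finite.of_equiv _ e.symm.toEquiv, ?_⟩
  rw [Nat.card_congr e.toEquiv, hcard]

/-- **`|T| = |Ш¹_fin|`** (LIM3, first half), under the hypotheses of ALG8. -/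
theorem card_TQ (p : ℕ) (hp : p.Prime) (G : Type) [Group G] [Fintype G] (N C : Rep.{0} ℤ G)
    (γ : groupCohomology C 2) (hNfin : Finite N.V) (hNp : ∀ n : N.V, p • n = 0)
    (hC : IsClassModuleAt p C γ) (hT : TateNakayamaAtSpec)
    (H : Subgroup G) [H.Normal] [Fintype H] (hH : ∀ h ∈ H, ∀ n : N.V, N.ρ h n = n)
    (hnorm : NormInP p H C)
    (ι : Type) [Fintype ι] (Dc : ι → Type) [∀ i, Group (Dc i)] [∀ i, Finite (Dc i)]
    (φ : ∀ i, Dc i →* G) (hφ : ∀ i, Function.Injective (φ i))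
    (X : ∀ i, Rep.{0} ℤ (Dc i)) (γX : ∀ i, groupCohomology (X i) 2)
    (j : ∀ i, Rep.coind (φ i) (X i) ⟶ C)
    (hX : ∀ i, IsClassModuleAt p (X i) (γX i))
    (hj : ∀ i, ∀ y : groupCohomology (Rep.coind (φ i) (X i)) 2,
      p • y = 0 → (T.coeffMap (j i) 2).hom y = 0 → y = 0) :
    Finite (TQ (N := N) j) ∧ Nat.card (TQ (N := N) j) = Nat.card (shaFin φ N) := by
  obtain ⟨ha, hb, hfin, hcard⟩ :=
    alg8 p hp G N C γ hNfin hNp hC hT H hH hnorm ι Dc φ hφ X γX j hX hj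
  exact card_TQ_of hp φ hNp X j ha hb hfin hcard

end Count

/-! ## Transition maps -/

section Tr

variable {G G' : Type} [Group G] [Group G'] (π : G' →* G)
variable {N : Rep.{0} ℤ G} {N' : Rep.{0} ℤ G'} (ν : N' ⟶ Rep.res π N)
variable {C : Rep.{0} ℤ G} {C' : Rep.{0} ℤ G'} (ι₀ : Rep.res π C ⟶ C')
variable {ι : Type} [Fintype ι] {J : ι → Rep.{0} ℤ G} {J' : ι → Rep.{0} ℤ G'}
variable (j : ∀ i, J i ⟶ C) (j' : ∀ i, J' i ⟶ C') (ιJ : ∀ i, Rep.res π (J i) ⟶ J' i)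

omit [Fintype ι] in
/-- `tr (f ≫ j_i) = tr f ≫ j'_i` if `ι ∘ j_i = j'_i ∘ ιJ_i`. -/
lemma trA_comp (i : ι) (hsq : (Rep.resFunctor π).map (j i) ≫ ι₀ = ιJ i ≫ j' i)
    (f : homA N (J i)) : trA π ν ι₀ (f ≫ j i) = trA π ν (ιJ i) f ≫ j' i := by
  change trR π ν ≫ (Rep.resFunctor π).map (f ≫ j i) ≫ ι₀ =
    (trR π ν ≫ (Rep.resFunctor π).map f ≫ ιJ i) ≫ j' i
  rw [Functor.map_comp, Category.assoc, Category.assoc, Category.assoc, hsq]

/-- `tr` maps local sums to local sums. -/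
lemma trA_isLocSum (hsq : ∀ i, (Rep.resFunctor π).map (j i) ≫ ι₀ = ιJ i ≫ j' i)
    {f : homA N C} (hf : IsLocSum j f) : IsLocSum j' (trA π ν ι₀ f) := by
  obtain ⟨fJ, h, rfl⟩ := hf
  refine ⟨fun i => trA π ν (ιJ i) (fJ i), trB π ν ι₀ h, ?_⟩
  rw [map_add, map_sum, trA_resBA]
  congr 1
  exact Finset.sum_congr rfl (fun i _ => trA_comp π ν ι₀ j j' ιJ i (hsq i) (fJ i))

lemma trA_mem_locSub (hsq : ∀ i, (Rep.resFunctor π).map (j i) ≫ ι₀ = ιJ i ≫ j' i) :
    locSub (N := N) j ≤ (locSub (N := N') j').comap (trA π ν ι₀) := fun f hf =>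
  (mem_locSub j' _).2 (trA_isLocSum π ν ι₀ j j' ιJ hsq ((mem_locSub j f).1 hf))

/-- The transition map `tr : T → T'` induced by `f ↦ ι ∘ f ∘ ρ`. -/
def trT (hsq : ∀ i, (Rep.resFunctor π).map (j i) ≫ ι₀ = ιJ i ≫ j' i) :
    TQ (N := N) j →+ TQ (N := N') j' :=
  QuotientAddGroup.map _ _ (trA π ν ι₀) (trA_mem_locSub π ν ι₀ j j' ιJ hsq)

lemma trT_mk (hsq : ∀ i, (Rep.resFunctor π).map (j i) ≫ ι₀ = ιJ i ≫ j' i) (f : homA N C) :
    trT π ν ι₀ j j' ιJ hsq (QuotientAddGroup.mk f) = QuotientAddGroup.mk (trA π ν ι₀ f) := rfl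

omit [Fintype ι] in
/-- The compatibility square `ι ∘ j_i = j'_i ∘ ιJ_i` from its elementwise form (GD7a). -/
lemma sq_of_apply (i : ι)
    (h : ∀ x : (J i).V, ι₀.hom ((j i).hom x) = (j' i).hom ((ιJ i).hom x)) :
    (Rep.resFunctor π).map (j i) ≫ ι₀ = ιJ i ≫ j' i :=
  repHom_ext_tr (fun x => h x)

end Tr

/-! ## Functoriality of the transition maps -/

section TrTr

variable {G G' G'' : Type} [Group G] [Group G'] [Group G''] (π : G' →* G) (π' : G'' →* G')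
variable {N : Rep.{0} ℤ G} {N' : Rep.{0} ℤ G'} {N'' : Rep.{0} ℤ G''}
variable (ν : N' ⟶ Rep.res π N) (ν' : N'' ⟶ Rep.res π' N') (ν'' : N'' ⟶ Rep.res (π.comp π') N)
variable {C : Rep.{0} ℤ G} {C' : Rep.{0} ℤ G'} {C'' : Rep.{0} ℤ G''}
variable (ι₀ : Rep.res π C ⟶ C') (ι₀' : Rep.res π' C' ⟶ C'') (ι₀'' : Rep.res (π.comp π') C ⟶ C'')

/-- `tr ∘ tr = tr` on `A`. -/
lemma trA_trA (hν : ∀ n : N''.V, ν''.hom n = ν.hom (ν'.hom n))
    (hι : ∀ c : C.V, ι₀''.hom c = ι₀'.hom (ι₀.hom c)) (f : homA N C) :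
    trA π' ν' ι₀' (trA π ν ι₀ f) = trA (π.comp π') ν'' ι₀'' f := by
  apply repHom_ext_tr
  intro r
  rw [trA_hom_apply, trA_hom_apply, trA_hom_apply, hι,
    H793.trR_comp_apply π π' ν ν' ν'' hν r]

variable {ι : Type} [Fintype ι] {J : ι → Rep.{0} ℤ G} {J' : ι → Rep.{0} ℤ G'}
  {J'' : ι → Rep.{0} ℤ G''}
variable (j : ∀ i, J i ⟶ C) (j' : ∀ i, J' i ⟶ C') (j'' : ∀ i, J'' i ⟶ C'')
  (ιJ : ∀ i, Rep.res π (J i) ⟶ J' i) (ιJ' : ∀ i, Rep.res π' (J' i) ⟶ J'' i)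
  (ιJ'' : ∀ i, Rep.res (π.comp π') (J i) ⟶ J'' i)

/-- `tr ∘ tr = tr` on `T`. -/
theorem trT_trT (hν : ∀ n : N''.V, ν''.hom n = ν.hom (ν'.hom n))
    (hι : ∀ c : C.V, ι₀''.hom c = ι₀'.hom (ι₀.hom c))
    (hsq : ∀ i, (Rep.resFunctor π).map (j i) ≫ ι₀ = ιJ i ≫ j' i)
    (hsq' : ∀ i, (Rep.resFunctor π').map (j' i) ≫ ι₀' = ιJ' i ≫ j'' i)
    (hsq'' : ∀ i, (Rep.resFunctor (π.comp π')).map (j i) ≫ ι₀'' = ιJ'' i ≫ j'' i)
    (t : TQ (N := N) j) :
    trT π' ν' ι₀' j' j'' ιJ' hsq' (trT π ν ι₀ j j' ιJ hsq t) =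
      trT (π.comp π') ν'' ι₀'' j j'' ιJ'' hsq'' t := by
  induction t using QuotientAddGroup.induction_on with
  | H f =>
    rw [trT_mk, trT_mk, trT_mk, trA_trA π π' ν ν' ν'' ι₀ ι₀' ι₀'' hν hι f]

end TrTr

section InfGeneric

variable {k G G' D D' : Type} [CommRing k] [Group G] [Group G'] [Group D] [Group D']
  (π : G' →* G) {N : Rep.{0} k G} {N' : Rep.{0} k G'} (μ : Rep.res π N ⟶ N')
  (φ : D →* G) (φ' : D' →* G') (πD : D' →* D)

/-- `μ : res_π N ⟶ N'` as a morphism along `D' → D`. -/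
def alongDec (hsq : ∀ d, φ (πD d) = π (φ' d)) :
    Rep.res πD (Rep.res φ N) ⟶ Rep.res φ' N' :=
  Rep.ofHom (ρ := ((N.ρ.comp φ).comp πD)) (σ := (N'.ρ.comp φ'))
    ⟨μ.hom.toLinearMap, fun d => by
      ext n
      have h := Rep.hom_comm_apply μ (φ' d) n
      change μ.hom (N.ρ (φ (πD d)) n) = N'.ρ (φ' d) (μ.hom n)
      rw [hsq d]
      exact h⟩

/-- Restriction to `D'` of an inflated class is the inflation of its restriction to `D`. -/
theorem res_inf_eq (hsq : ∀ d, φ (πD d) = π (φ' d)) (n : ℕ) (x : groupCohomology N n) :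
    (groupCohomology.map φ' (𝟙 (Rep.res φ' N')) n).hom ((groupCohomology.map π μ n).hom x) =
      (groupCohomology.map πD (alongDec π μ φ φ' πD hsq) n).hom
        ((groupCohomology.map φ (𝟙 (Rep.res φ N)) n).hom x) := by
  have h1 := groupCohomology.map_comp (k := k) π φ' μ (𝟙 (Rep.res φ' N')) n
  have h2 := groupCohomology.map_comp (k := k) φ πD (𝟙 (Rep.res φ N))
    (alongDec π μ φ φ' πD hsq) n
  have h3 : groupCohomology.map (π.comp φ')
      ((Rep.resFunctor φ').map μ ≫ 𝟙 (Rep.res φ' N')) n =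
      groupCohomology.map (φ.comp πD)
        ((Rep.resFunctor πD).map (𝟙 (Rep.res φ N)) ≫ alongDec π μ φ φ' πD hsq) n :=
    groupCohomology.map_congr (MonoidHom.ext fun d => (hsq d).symm) (by rfl) n
  exact congrArg (fun t => t.hom x) (h1.symm.trans (h3.trans h2))

end InfGeneric

section Inj

variable {G G' : Type} [Group G] [Group G'] (π : G' →* G)
variable {N : Rep.{0} ℤ G} {N' : Rep.{0} ℤ G'} (ν : N' ≅ Rep.res π N)
variable {ι : Type} {Dc : ι → Type} [∀ i, Group (Dc i)] {Dc' : ι → Type} [∀ i, Group (Dc' i)]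
  (φ : ∀ i, Dc i →* G) (φ' : ∀ i, Dc' i →* G')

/-- **Inflation preserves local triviality** (`D'_i → D_i` compatible with `G' → G`). -/
theorem isLocTriv_inf (πD : ∀ i, Dc' i →* Dc i) (hsq : ∀ i d, φ i (πD i d) = π (φ' i d))
    (x : groupCohomology N 1) (hx : IsLocTriv φ N x) :
    IsLocTriv φ' N' ((groupCohomology.map π ν.inv 1).hom x) := by
  intro i
  have h4 := res_inf_eq π ν.inv (φ i) (φ' i) (πD i) (hsq i) 1 x
  have h5 : (groupCohomology.map (φ i) (𝟙 (Rep.res (φ i) N)) 1).hom x = 0 := hx i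
  rw [h5, map_zero] at h4
  exact h4

variable {C : Rep.{0} ℤ G} {C' : Rep.{0} ℤ G'} (ι₀ : Rep.res π C ⟶ C')
variable [Fintype ι] {J : ι → Rep.{0} ℤ G} {J' : ι → Rep.{0} ℤ G'}
variable (j : ∀ i, J i ⟶ C) (j' : ∀ i, J' i ⟶ C') (ιJ : ∀ i, Rep.res π (J i) ⟶ J' i)

/-- **`tr : T → T'` is injective** (LIM3, second half): if `inf_ι` is injective on
`H²(G, C)[p]` (GD8), inflation preserves `Ш¹_fin`, and the pairing criterion ALG8(a) holds for
`G` (⇒) and `G'` (⇐). -/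
theorem trT_injective {p : ℕ} (hNp : ∀ n : N.V, p • n = 0)
    (hsq : ∀ i, (Rep.resFunctor π).map (j i) ≫ ι₀ = ιJ i ≫ j' i)
    (ha : ∀ f : homA N C, (∀ x, IsLocTriv φ N x → pair f x = 0) → IsLocSum j f)
    (ha' : ∀ f' : homA N' C', IsLocSum j' f' → ∀ y, IsLocTriv φ' N' y → pair f' y = 0)
    (hinf : ∀ x, IsLocTriv φ N x → IsLocTriv φ' N' ((groupCohomology.map π ν.inv 1).hom x))
    (hgd8 : ∀ z : groupCohomology C 2, p • z = 0 → infCoeff π ι₀ 2 z = 0 → z = 0) :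
    Function.Injective (trT π ν.hom ι₀ j j' ιJ hsq) := by
  rw [injective_iff_map_eq_zero]
  intro t
  induction t using QuotientAddGroup.induction_on with
  | H f =>
    intro h
    rw [trT_mk, QuotientAddGroup.eq_zero_iff, mem_locSub] at h
    rw [QuotientAddGroup.eq_zero_iff, mem_locSub]
    apply ha
    intro x hx
    have h1 := ha' _ h _ (hinf x hx)
    rw [H245.alg10Pair G G' π N N' ν C C' ι₀ f x] at h1
    have hp0 : p • pair f x = 0 := by
      unfold pair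
      rw [← map_nsmul, ← map_nsmul, nsmul_H1_eq_zero p hNp x, map_zero, map_zero]
    exact hgd8 _ hp0 h1

end Inj

end

end Fermat.Agent.S55.E1.H957
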