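/-
S55 engine E1 (helper957): LIM3 + LIM4-glue ON THE SYSTEM `c.sysT` of `E1/Lim/Sys.lean`.

For a context `c : Lim.Ctx S p` whose base level is HIGH (`Ctx.IsHigh`: above a level `L₀ ⊇ μ_p`
trivialising `N`, and above the level `L₁` of GD6 for `L₀`):
* `sysT_card`         : `T_L` is finite and `|T_L| = |Ш¹_fin(L)|`, `Ш¹_fin(L) = shaFin (decHom) N_L`;
* `sysT_tr_injective` : the transition maps of `c.sysT` are injective;
* `card_shaFin_eq`    : `|shaFin (decHom) (toInt (coeff A L))| = |H603.sha1Fin A L|` (coefficients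
                        `ℤ` versus `K`);
* `sysT_card_eq`      : `|T_L| = |sha₁ S N|` if moreover `|sha1Fin N L| = |sha₁ S N|` above the base
                        (LIM4, `H603.exists_level_forall_card_sha1Fin_eq`);
* `exists_isHigh`     : every level lies below a level `L₂` such that every context with base
                        `≥ L₂` is high and satisfies the hypothesis of `sysT_card_eq`.
These are the hypotheses `hT_card`, `hT_inj` of `E1.card_colim_eq` with `s = |sha₁ S N|`.
-/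
import Fermat.Agent.S55.E1.Lim.Sys
import Fermat.Agent.S55.E1.H957.Lim3Abs
import Fermat.Agent.S55.E1.H603.FinLevelH1
import Fermat.Agent.S55.Spec.Datum3

set_option autoImplicit false
set_option linter.style.haveILetI false

open CategoryTheory groupCohomology ExtCitation

namespace Fermat.Agent.S55.E1.H957

open Fermat.Agent.S55.E1 Fermat.Agent.S55.Tow Fermat.Agent.S55.E1.Lim

noncomputable section

/-! ## Coefficients `ℤ` versus `K`: the finite-level `Ш¹` -/

section Bridge

variable {S : Finset Nat.Primes} {K : Type} [Field K] (A : Rep.{0, 0, 0} K GQ)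

/-- `Ш¹_fin` with `ℤ`-coefficients corresponds to `H603.sha1Fin` under `H603.H1IntEquiv`. -/
theorem mem_shaFin_iff (L : Level S) (x : groupCohomology (cf A L) 1) :
    x ∈ shaFin (fun q : S => L.decHom q.1) (cf A L) ↔
      H603.H1IntEquiv (H603.coeff A L) x ∈ H603.sha1Fin A L := by
  simp only [H603.sha1Fin, Submodule.mem_iInf, LinearMap.mem_ker]
  refine forall_congr' fun q => ?_
  have h1 := H603.H1IntEquiv_map (A := H603.coeff A L)
    (B := Rep.res (L.decHom q.1) (H603.coeff A L))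
    (L.decHom q.1) (𝟙 (Rep.res (L.decHom q.1) (H603.coeff A L))) x
  have h2 : H603.toIntHom (L.decHom q.1) (𝟙 (Rep.res (L.decHom q.1) (H603.coeff A L))) =
      𝟙 (Rep.res (L.decHom q.1) (cf A L)) := by
    apply Rep.hom_ext
    apply DFunLike.ext
    intro a
    rfl
  have key : H603.H1IntEquiv (Rep.res (L.decHom q.1) (H603.coeff A L))
      ((groupCohomology.map (L.decHom q.1) (𝟙 (Rep.res (L.decHom q.1) (cf A L))) 1).hom x) =
      (groupCohomology.map (L.decHom q.1)
        (𝟙 (Rep.res (L.decHom q.1) (H603.coeff A L))) 1).hom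
        (H603.H1IntEquiv (H603.coeff A L) x) :=
    (congrArg (fun φ => H603.H1IntEquiv (Rep.res (L.decHom q.1) (H603.coeff A L))
      ((groupCohomology.map (L.decHom q.1) φ 1).hom x)) h2).symm.trans h1
  constructor
  · intro hx
    have hx' : (groupCohomology.map (L.decHom q.1) (𝟙 (Rep.res (L.decHom q.1) (cf A L))) 1).hom x
        = 0 := hx
    exact key.symm.trans ((congrArg
      (H603.H1IntEquiv (Rep.res (L.decHom q.1) (H603.coeff A L))) hx').trans (map_zero _))
  · intro hx
    have hx' : (groupCohomology.map (L.decHom q.1)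
      (𝟙 (Rep.res (L.decHom q.1) (H603.coeff A L))) 1).hom
        (H603.H1IntEquiv (H603.coeff A L) x) = 0 := hx
    exact (H603.H1IntEquiv (Rep.res (L.decHom q.1) (H603.coeff A L))).injective
      ((key.trans hx').trans (map_zero _).symm)

/-- `|Ш¹_fin|` does not depend on the coefficient ring. -/
theorem card_shaFin_eq (L : Level S) :
    Nat.card (shaFin (fun q : S => L.decHom q.1) (cf A L)) = Nat.card (H603.sha1Fin A L) := by
  refine Nat.card_congr
    { toFun := fun x => ⟨H603.H1IntEquiv (H603.coeff A L) x.1, (mem_shaFin_iff A L x.1).1 x.2⟩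
      invFun := fun y => ⟨(H603.H1IntEquiv (H603.coeff A L)).symm y.1,
        (mem_shaFin_iff A L _).2 (by rw [AddEquiv.apply_symm_apply]; exact y.2)⟩
      left_inv := fun x => Subtype.ext (AddEquiv.symm_apply_apply _ _)
      right_inv := fun y => Subtype.ext (AddEquiv.apply_symm_apply _ _) }

end Bridge

/-! ## LIM3 on `c.sysT` -/

section Sys

variable {S : Finset Nat.Primes} {p : ℕ} [Fact p.Prime] (c : Ctx S p)

/-- The base level of `c` is HIGH over `L₀`: `L₀ ⊇ μ_p` trivialises `N`, `L₀ ≤ c.base`, and for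
all `L ≥ c.base` the norms from `Gal(L/L₀)` on `C(L)` are `p`-th multiples of invariants
(the conclusion of GD6 for `L₀`). -/
structure IsHighOver (L₀ : Level S) : Prop where
  le : L₀ ≤ c.base
  hμ : L₀.HasMu p
  triv : ∀ s ∈ L₀.U, ∀ n : c.N, c.N.ρ s n = n
  norm : ∀ (L : Level S) (h : L₀ ≤ L), c.base ≤ L →
    @NormInP p L.Gal _ (Level.relGal h) (Fintype.ofFinite _) (c.D.C L)

variable {c}

/-- `N_L` is killed by `p`. -/
lemma nsmul_NL (L : c.Idx) (n : (c.NL L).V) : p • n = 0 :=
  ZModModule.char_nsmul_eq_zero (G := (H603.coeff c.N L.1).V) p n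

/-- `N_L` is finite if `N` is. -/
lemma finite_NL_of [Finite c.N.V] (L : c.Idx) : Finite (c.NL L).V :=
  Finite.of_injective (cfVal c.N (L := L.1)) (cfVal_injective c.N)

/-- `Gal(L/L₀)` acts trivially on `N_L`. -/
lemma relGal_triv_NL {L₀ : Level S} (hh : IsHighOver c L₀) (L : c.Idx) :
    ∀ g ∈ Level.relGal (hh.le.trans L.2), ∀ n : (c.NL L).V, (c.NL L).ρ g n = n := by
  intro g
  induction g using QuotientGroup.induction_on with
  | H s =>
    intro hg n
    have hs : s ∈ L₀.U := by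
      have h1 : Level.proj (hh.le.trans L.2) (QuotientGroup.mk s) = 1 := hg
      rw [Level.proj_mk, QuotientGroup.eq_one_iff] at h1
      exact h1
    apply cfVal_injective c.N
    rw [cfVal_ρ]
    exact hh.triv s hs _

/-- The conclusions of ALG8 at every level of a high context. -/
theorem alg8_sys (hD : c.D.IsGoodMu p) (hT : TateNakayamaAtSpec) (hLoc : LocalSpec p)
    [Finite c.N.V] {L₀ : Level S} (hh : IsHighOver c L₀) (L : c.Idx) :
    (∀ f : homA (c.NL L) (c.D.C L.1),
      (∀ x, IsLocTriv (fun q : S => L.1.decHom q.1) (c.NL L) x → pair f x = 0) ↔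
        IsLocSum (c.jS L) f) ∧
    (∀ χ : groupCohomology (c.NL L) 1 →+ groupCohomology (c.D.C L.1) 2,
      ∃ f : homA (c.NL L) (c.D.C L.1),
        ∀ x, IsLocTriv (fun q : S => L.1.decHom q.1) (c.NL L) x → pair f x = χ x) ∧
    Finite (shaFin (fun q : S => L.1.decHom q.1) (c.NL L)) ∧
    Nat.card (shaFin (fun q : S => L.1.decHom q.1) (c.NL L) →+ groupCohomology (c.D.C L.1) 2) =
      Nat.card (shaFin (fun q : S => L.1.decHom q.1) (c.NL L)) := by
  letI : Fintype L.1.Gal := Fintype.ofFinite _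
  haveI : (Level.relGal (hh.le.trans L.2)).Normal := MonoidHom.normal_ker _
  have hμ : L.1.HasMu p := hh.hμ.mono (hh.le.trans L.2)
  choose γX hγX using fun q : S => hLoc.1 S L.1 q.1
  exact @alg8 p (Fact.out : p.Prime) L.1.Gal _ _ (c.NL L) (c.D.C L.1) (c.D.γ L.1)
    (finite_NL_of L) (nsmul_NL L) (hD.gd1 L.1 hμ) hT
    (Level.relGal (hh.le.trans L.2)) _ (Fintype.ofFinite _) (relGal_triv_NL hh L)
    (hh.norm L.1 (hh.le.trans L.2) L.2)
    S _ (fun q => L.1.Dec q.1) _ _ (fun q => L.1.decHom q.1)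
    (fun q => L.1.decHom_injective q.1)
    (fun q => L.1.locUnits q.1) γX (c.jS L) hγX
    (fun q y => hD.gd3 L.1 hμ q.1 q.2 y)

/-- **LIM3 (count)**: `T_L` is finite and `|T_L| = |Ш¹_fin(L)|`, at every level of a high
context. -/
theorem sysT_card (hD : c.D.IsGoodMu p) (hT : TateNakayamaAtSpec) (hLoc : LocalSpec p)
    [Finite c.N.V] {L₀ : Level S} (hh : IsHighOver c L₀) (L : c.Idx) :
    Finite (c.sysT.obj L) ∧
      Nat.card (c.sysT.obj L) = Nat.card (shaFin (fun q : S => L.1.decHom q.1) (c.NL L)) := by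
  obtain ⟨ha, hb, hfin, hcard⟩ := alg8_sys hD hT hLoc hh L
  exact card_TQ_of (Fact.out : p.Prime) (fun q : S => L.1.decHom q.1) (nsmul_NL L)
    (fun q : S => L.1.locUnits q.1) (c.jS L) ha hb hfin hcard

/-- **LIM3 (injectivity)**: the transition maps of `c.sysT` are injective, for a high
context. -/
theorem sysT_tr_injective (hD : c.D.IsGoodMu p) (hT : TateNakayamaAtSpec) (hLoc : LocalSpec p)
    [Finite c.N.V] {L₀ : Level S} (hh : IsHighOver c L₀) {L L' : c.Idx} (h : L ≤ L') :
    Function.Injective (c.sysT.tr h) := by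
  obtain ⟨ha, -, -, -⟩ := alg8_sys hD hT hLoc hh L
  obtain ⟨ha', -, -, -⟩ := alg8_sys hD hT hLoc hh L'
  have hμ : L.1.HasMu p := hh.hμ.mono (hh.le.trans L.2)
  exact trT_injective (c.π h) (c.νIso h) (fun q : S => L.1.decHom q.1)
    (fun q : S => L'.1.decHom q.1) (c.D.tr h) (c.jS L) (c.jS L')
    (fun q : S => Level.trJ h q.1) (nsmul_NL L) (c.sq h)
    (fun f hf => (ha f).1 hf) (fun f' hf' => (ha' f').2 hf')
    (isLocTriv_inf (c.π h) (c.νIso h) (fun q : S => L.1.decHom q.1)
      (fun q : S => L'.1.decHom q.1) (fun q : S => Level.projDec h q.1)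
      (fun q d => (Level.proj_decHom h q.1 d).symm))
    (fun z hz hz0 => hD.gd8 h hμ z hz hz0)

/-- **LIM3 + LIM4**: `|T_L| = |sha₁ S N|` at every level of a high context above the level of
LIM4. -/
theorem sysT_card_eq (hD : c.D.IsGoodMu p) (hT : TateNakayamaAtSpec) (hLoc : LocalSpec p)
    [Finite c.N.V] {L₀ : Level S} (hh : IsHighOver c L₀)
    (hsha : ∀ L : Level S, c.base ≤ L →
      Nat.card (H603.sha1Fin c.N L) = Nat.card (sha₁ S c.N)) (L : c.Idx) :
    Nat.card (c.sysT.obj L) = Nat.card (sha₁ S c.N) :=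
  ((sysT_card hD hT hLoc hh L).2.trans (card_shaFin_eq c.N L.1)).trans (hsha L.1 L.2)

end Sys

/-! ## Existence of high levels -/

section High

variable {S : Finset Nat.Primes} {p : ℕ} [Fact p.Prime]

/-- **GD6 + LIM4**: above every level `L₀ ⊇ μ_p` trivialising `N` there is a level `L₂` such that
for all `L ≥ L₂` the norm condition of GD6 holds and `|Ш¹_fin(L)| = |sha₁ S N|`. -/
theorem exists_high_level {D : TowerDatum S} (hD : D.IsGoodMu p)
    (N : Rep.{0, 0, 0} (ZMod p) GQ) (h2 : (2 : ZMod p) ≠ 0) [Finite (sha₁ S N)]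
    (L₀ : Level S) (hμ : L₀.HasMu p) (hN : ∀ s ∈ L₀.U, ∀ n : N, N.ρ s n = n) :
    ∃ L₂ : Level S, L₀ ≤ L₂ ∧
      (∀ (L : Level S) (h : L₀ ≤ L), L₂ ≤ L →
        @NormInP p L.Gal _ (Level.relGal h) (Fintype.ofFinite _) (D.C L)) ∧
      (∀ L : Level S, L₂ ≤ L → Nat.card (H603.sha1Fin N L) = Nat.card (sha₁ S N)) := by
  obtain ⟨L₁, h01, hnorm⟩ := hD.gd6 L₀ hμ
  obtain ⟨L₂, h12, hsha⟩ := H603.exists_level_forall_card_sha1Fin_eq N h2 L₁
    (fun s hs n => hN s (Level.U_anti h01 hs) n)
  exact ⟨L₂, h01.trans h12, fun L h hL => hnorm L h (h12.trans hL), hsha⟩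

/-- A context over a good datum whose base level is above `L₂` of `exists_high_level` is high. -/
theorem isHighOver_of (c : Ctx S p) {L₀ : Level S} (hle : L₀ ≤ c.base) (hμ : L₀.HasMu p)
    (hN : ∀ s ∈ L₀.U, ∀ n : c.N, c.N.ρ s n = n)
    (hnorm : ∀ (L : Level S) (h : L₀ ≤ L), c.base ≤ L →
      @NormInP p L.Gal _ (Level.relGal h) (Fintype.ofFinite _) (c.D.C L)) :
    IsHighOver c L₀ :=
  ⟨hle, hμ, hN, hnorm⟩

/-- The context over a datum good above `μ_p`, a module `M` and a base level trivialising `M`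
and `N = M^∨(1)`. -/
def ctxAt {D : TowerDatum S} (hD : D.IsGoodMu p) (M : Rep.{0, 0, 0} (ZMod p) GQ)
    (base : Level S) (hM : ∀ s ∈ base.U, ∀ m : M, M.ρ s m = m)
    (hN : ∀ s ∈ base.U, ∀ n : M.dualTwist (cycloChar p), (M.dualTwist (cycloChar p)).ρ s n = n) :
    Ctx S p where
  D := D
  M := M
  base := base
  h7 := fun h q hq x => hD.gd7a h q hq x
  h7b := fun h h' x => hD.gd7b h h' x
  h4 := hD.gd4
  hM := hM
  hN := hN

/-- **LIM3 + LIM4 + GD6, final form**: above every level `L₀ ⊇ μ_p` trivialising `N` there is a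
level `L₂` such that for every base level `≥ L₂` (trivialising `M`) the system `T` of the
context `ctxAt` has constant cardinality `|sha₁ S N|` and injective transition maps
(the hypotheses `hT_card`, `hT_inj` of `E1.card_colim_eq`). -/
theorem exists_level_sysT {D : TowerDatum S} (hD : D.IsGoodMu p) (hT : TateNakayamaAtSpec)
    (hLoc : LocalSpec p) (M : Rep.{0, 0, 0} (ZMod p) GQ) (h2 : (2 : ZMod p) ≠ 0)
    [Finite (M.dualTwist (cycloChar p)).V] [Finite (sha₁ S (M.dualTwist (cycloChar p)))]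
    (L₀ : Level S) (hμ : L₀.HasMu p)
    (hN : ∀ s ∈ L₀.U, ∀ n : M.dualTwist (cycloChar p),
      (M.dualTwist (cycloChar p)).ρ s n = n) :
    ∃ L₂ : Level S, L₀ ≤ L₂ ∧ ∀ (base : Level S), L₂ ≤ base →
      ∀ (hM' : ∀ s ∈ base.U, ∀ m : M, M.ρ s m = m)
      (hN' : ∀ s ∈ base.U, ∀ n : M.dualTwist (cycloChar p),
        (M.dualTwist (cycloChar p)).ρ s n = n),
      (∀ L : (ctxAt hD M base hM' hN').Idx,
        Nat.card ((ctxAt hD M base hM' hN').sysT.obj L) =
          Nat.card (sha₁ S (M.dualTwist (cycloChar p)))) ∧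
      (∀ {L L' : (ctxAt hD M base hM' hN').Idx} (h : L ≤ L'),
        Function.Injective ((ctxAt hD M base hM' hN').sysT.tr h)) := by
  obtain ⟨L₂, h02, hnorm, hsha⟩ :=
    exists_high_level hD (M.dualTwist (cycloChar p)) h2 L₀ hμ hN
  refine ⟨L₂, h02, fun base hb hM' hN' => ?_⟩
  have hh : IsHighOver (ctxAt hD M base hM' hN') L₀ :=
    ⟨h02.trans hb, hμ, hN, fun L h hL => hnorm L h (hb.trans hL)⟩
  haveI : Finite (ctxAt hD M base hM' hN').N.V :=
    (inferInstance : Finite (M.dualTwist (cycloChar p)).V)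
  exact ⟨fun L => sysT_card_eq (c := ctxAt hD M base hM' hN') hD hT hLoc hh
      (fun L hL => hsha L (hb.trans hL)) L,
    fun {L L'} h => sysT_tr_injective (c := ctxAt hD M base hM' hN') hD hT hLoc hh h⟩

end High

end

end Fermat.Agent.S55.E1.H957
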