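/-
S55 engine E1 (helper957): **LIM3** — producer of `Lim.LIM3Spec` (`E1/SpecLim.lean`).
`|T_F| = |sha₁ S N|` and the transition maps of `c.sysT` are injective, for every good context.
Proof: `H957.sysT_card`, `H957.sysT_tr_injective` (ALG8, ALG10P + gd1, gd3, gd8, GD6, LocalSpec).
-/
import Fermat.Agent.S55.E1.SpecLim
import Fermat.Agent.S55.E1.H957.Lim3Sys

set_option autoImplicit false
set_option linter.style.haveILetI false

open CategoryTheory groupCohomology ExtCitation

namespace Fermat.Agent.S55.E1.H957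

open Fermat.Agent.S55.E1 Fermat.Agent.S55.Tow Fermat.Agent.S55.E1.Lim

/-- `N = M^∨(1)` is finite if `M` is finite-dimensional over `𝔽_p`. -/
lemma finite_N_of_good {S : Finset Nat.Primes} {p : ℕ} [Fact p.Prime] (c : Ctx S p)
    (hc : c.Good) : Finite c.N.V := by
  haveI := hc.fin
  haveI : Module.Finite (ZMod p) (Module.Dual (ZMod p) c.M) := inferInstance
  haveI : Module.Finite (ZMod p) c.N.V :=
    inferInstanceAs (Module.Finite (ZMod p) (Module.Dual (ZMod p) c.M))
  exact Module.finite_of_finite (ZMod p)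

/-- A good context is high over the level `L₀` of `Good.norm`. -/
lemma exists_isHighOver {S : Finset Nat.Primes} {p : ℕ} [Fact p.Prime] (c : Ctx S p)
    (hc : c.Good) : ∃ L₀ : Level S, IsHighOver c L₀ := by
  obtain ⟨L₀, h₀, hμ, htriv, hnorm⟩ := hc.norm
  exact ⟨L₀, ⟨h₀, hμ, htriv, fun L _ hL => hnorm L hL⟩⟩

/-- **LIM3.** -/
theorem lim3 : LIM3Spec := by
  intro p _ S c hc
  haveI := finite_N_of_good c hc
  obtain ⟨L₀, hh⟩ := exists_isHighOver c hc
  refine ⟨fun L => ?_, fun {L L'} h => ?_⟩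
  · exact (sysT_card hc.good.good hc.tn hc.loc hh L).2.trans (hc.sha1 L)
  · exact sysT_tr_injective hc.good.good hc.tn hc.loc hh h

end Fermat.Agent.S55.E1.H957
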