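/-
S55 engine E1 (helper957): LIM3 ON THE TOWER — the system `T` of blueprint §4
(`coord/S55-E1.md`), as an instance of `H957.Lim3Abs`.

For a tower datum `D`, a coefficient module `A : Rep ℤ G_ℚ` and a level `L` trivialising `A`:
* `TL D A L hL = A_L(C) ⧸ (Σ_{q ∈ S} j_q ∘ A_L(J_q) + res Bc_L(C))`   (the group `T_F`);
* `trTL h7 A h hL : T_L →+ T_{L'}` for `L ≤ L'`, `trTL_trTL` (functoriality, from GD7b);
* `card_TL` : `T_L` is finite and `|T_L| = |Ш¹_fin(L)|`  (ALG8 + gd1, gd3, GD6, LocalSpec(1));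
* `trTL_injective` : the transition maps are injective      (ALG10P + gd8).
* `TBase`, `Tsys`: the packaged `AddSys` over the levels `≥ L₁`, `Tsys_card`, `Tsys_tr_injective`.
-/
import Fermat.Agent.S55.E1.H957.Lim3Abs
import Fermat.Agent.S55.E1.Lim.Obj
import Fermat.Agent.S55.E1.LimAbs
import Fermat.Agent.S55.Spec.Datum3

set_option autoImplicit false
set_option linter.style.haveILetI false

open CategoryTheory

namespace Fermat.Agent.S55.E1.H957

open Fermat.Agent.S55.E1 Fermat.Agent.S55.Tow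

noncomputable section

variable {S : Finset Nat.Primes} (D : TowerDatum S) (A : Rep.{0} ℤ GQ)

/-! ## The groups `T_L` and their transition maps -/

/-- `T_F = A_F(C) ⧸ (Σ_{q ∈ S} j_q ∘ A_F(J_q) + res Bc_F(C))` at the level `L`. -/
abbrev TL (L : Level S) (hL : ∀ s ∈ L.U, A.ρ s = 1) : Type :=
  TQ (N := Lim.lev A L hL) (fun q : S => D.j L q.1)

variable {D}

/-- The compatibility squares `tr ∘ j_q = j'_q ∘ tr_J` (GD7a). -/
lemma sqTL (h7 : Lim.TrCompat D) {L L' : Level S} (h : L ≤ L') (q : S) :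
    (Rep.resFunctor (Level.proj h)).map (D.j L q.1) ≫ D.tr h = Level.trJ h q.1 ≫ D.j L' q.1 :=
  sq_of_apply (Level.proj h) (D.tr h) (fun q : S => D.j L q.1) (fun q : S => D.j L' q.1)
    (fun q : S => Level.trJ h q.1) q (fun x => h7 h q.1 q.2 x)

/-- The transition map `T_L → T_{L'}`. -/
def trTL (h7 : Lim.TrCompat D) {L L' : Level S} (h : L ≤ L') (hL : ∀ s ∈ L.U, A.ρ s = 1) :
    TL D A L hL →+ TL D A L' (Lim.triv_of_le A h hL) :=
  trT (Level.proj h) (Lim.levν A h hL) (D.tr h) (fun q : S => D.j L q.1)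
    (fun q : S => D.j L' q.1) (fun q : S => Level.trJ h q.1) (sqTL h7 h)

lemma trTL_mk (h7 : Lim.TrCompat D) {L L' : Level S} (h : L ≤ L') (hL : ∀ s ∈ L.U, A.ρ s = 1)
    (f : homA (Lim.lev A L hL) (D.C L)) :
    trTL A h7 h hL (QuotientAddGroup.mk f) =
      QuotientAddGroup.mk (trA (Level.proj h) (Lim.levν A h hL) (D.tr h) f) := rfl

/-- `proj` is transitive. -/
lemma proj_trans {L L' L'' : Level S} (h : L ≤ L') (h' : L' ≤ L'') :
    Level.proj (h.trans h') = (Level.proj h).comp (Level.proj h') := by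
  ext x
  rfl

end

/-! ## Functoriality along an equality of group homomorphisms -/

section TrTrEq

variable {G G' G'' : Type} [Group G] [Group G'] [Group G''] (π : G' →* G) (π' : G'' →* G')
  (π'' : G'' →* G)
variable {N : Rep.{0} ℤ G} {N' : Rep.{0} ℤ G'} {N'' : Rep.{0} ℤ G''}
variable (ν : N' ⟶ Rep.res π N) (ν' : N'' ⟶ Rep.res π' N') (ν'' : N'' ⟶ Rep.res π'' N)
variable {C : Rep.{0} ℤ G} {C' : Rep.{0} ℤ G'} {C'' : Rep.{0} ℤ G''}
variable (ι₀ : Rep.res π C ⟶ C') (ι₀' : Rep.res π' C' ⟶ C'') (ι₀'' : Rep.res π'' C ⟶ C'')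
variable {ι : Type} [Fintype ι] {J : ι → Rep.{0} ℤ G} {J' : ι → Rep.{0} ℤ G'}
  {J'' : ι → Rep.{0} ℤ G''}
variable (j : ∀ i, J i ⟶ C) (j' : ∀ i, J' i ⟶ C') (j'' : ∀ i, J'' i ⟶ C'')
  (ιJ : ∀ i, Rep.res π (J i) ⟶ J' i) (ιJ' : ∀ i, Rep.res π' (J' i) ⟶ J'' i)
  (ιJ'' : ∀ i, Rep.res π'' (J i) ⟶ J'' i)

/-- `tr ∘ tr = tr` on `T`, for `π'' = π ∘ π'` (propositionally). -/
theorem trT_trT_of_eq (hπ : π'' = π.comp π')
    (hν : ∀ n : N''.V, ν''.hom n = ν.hom (ν'.hom n))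
    (hι : ∀ c : C.V, ι₀''.hom c = ι₀'.hom (ι₀.hom c))
    (hsq : ∀ i, (Rep.resFunctor π).map (j i) ≫ ι₀ = ιJ i ≫ j' i)
    (hsq' : ∀ i, (Rep.resFunctor π').map (j' i) ≫ ι₀' = ιJ' i ≫ j'' i)
    (hsq'' : ∀ i, (Rep.resFunctor π'').map (j i) ≫ ι₀'' = ιJ'' i ≫ j'' i)
    (t : TQ (N := N) j) :
    trT π' ν' ι₀' j' j'' ιJ' hsq' (trT π ν ι₀ j j' ιJ hsq t) =
      trT π'' ν'' ι₀'' j j'' ιJ'' hsq'' t := by
  subst hπ
  exact trT_trT π π' ν ν' ν'' ι₀ ι₀' ι₀'' j j' j'' ιJ ιJ' ιJ'' hν hι hsq hsq' hsq'' t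

end TrTrEq

noncomputable section

variable {S : Finset Nat.Primes} {D : TowerDatum S} (A : Rep.{0} ℤ GQ)

/-- **Functoriality of the transition maps of `T`** (from GD7b). -/
theorem trTL_trTL (h7 : Lim.TrCompat D)
    (h7b : ∀ {L L' L'' : Level S} (h : L ≤ L') (h' : L' ≤ L'') (c : (D.C L).V),
      (D.tr h').hom ((D.tr h).hom c) = (D.tr (h.trans h')).hom c)
    {L L' L'' : Level S} (h : L ≤ L') (h' : L' ≤ L'') (hL : ∀ s ∈ L.U, A.ρ s = 1)
    (t : TL D A L hL) :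
    trTL A h7 h' (Lim.triv_of_le A h hL) (trTL A h7 h hL t) = trTL A h7 (h.trans h') hL t :=
  trT_trT_of_eq (Level.proj h) (Level.proj h') (Level.proj (h.trans h'))
    (Lim.levν A h hL) (Lim.levν A h' (Lim.triv_of_le A h hL)) (Lim.levν A (h.trans h') hL)
    (D.tr h) (D.tr h') (D.tr (h.trans h'))
    (fun q : S => D.j L q.1) (fun q : S => D.j L' q.1) (fun q : S => D.j L'' q.1)
    (fun q : S => Level.trJ h q.1) (fun q : S => Level.trJ h' q.1)
    (fun q : S => Level.trJ (h.trans h') q.1)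
    (proj_trans h h') (fun _ => rfl) (fun c => (h7b h h' c).symm)
    (sqTL h7 h) (sqTL h7 h') (sqTL h7 (h.trans h')) t

/-! ## The count and the injectivity at one level -/

/-- GD7a as `Lim.TrCompat`. -/
lemma trCompat_of {p : ℕ} (hD : D.IsGoodMu p) : Lim.TrCompat D :=
  fun h q hq x => hD.gd7a h q hq x

/-- `Gal(F/F₀)` acts trivially on `A_F` if `F₀` trivialises `A`. -/
lemma relGal_triv {L₀ L : Level S} (h : L₀ ≤ L) (hL₀ : ∀ s ∈ L₀.U, A.ρ s = 1)
    (hL : ∀ s ∈ L.U, A.ρ s = 1) :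
    ∀ g ∈ Level.relGal h, ∀ n : (Lim.lev A L hL).V, (Lim.lev A L hL).ρ g n = n := by
  intro g
  induction g using QuotientGroup.induction_on with
  | H s =>
    intro hg n
    have hs : s ∈ L₀.U := by
      have h1 : Level.proj h (QuotientGroup.mk s) = 1 := hg
      rw [Level.proj_mk, QuotientGroup.eq_one_iff] at h1
      exact h1
    show A.ρ s n = n
    rw [hL₀ s hs]
    rfl

/-- The conclusions of ALG8 at the level `L`. -/
theorem alg8_TL {p : ℕ} (hp : p.Prime) (hD : D.IsGoodMu p) (hT : TateNakayamaAtSpec)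
    (hLoc : LocalSpec p) (hAfin : Finite A.V) (hAp : ∀ a : A.V, p • a = 0)
    {L₀ L : Level S} (h : L₀ ≤ L) (hL₀ : ∀ s ∈ L₀.U, A.ρ s = 1) (hL : ∀ s ∈ L.U, A.ρ s = 1)
    (hμ : L.HasMu p)
    (hnorm : @NormInP p L.Gal _ (Level.relGal h) (Fintype.ofFinite _) (D.C L)) :
    (∀ f : homA (Lim.lev A L hL) (D.C L),
      (∀ x, IsLocTriv (fun q : S => L.decHom q.1) (Lim.lev A L hL) x → pair f x = 0) ↔
        IsLocSum (fun q : S => D.j L q.1) f) ∧
    (∀ χ : groupCohomology (Lim.lev A L hL) 1 →+ groupCohomology (D.C L) 2,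
      ∃ f : homA (Lim.lev A L hL) (D.C L),
        ∀ x, IsLocTriv (fun q : S => L.decHom q.1) (Lim.lev A L hL) x → pair f x = χ x) ∧
    Finite (shaFin (fun q : S => L.decHom q.1) (Lim.lev A L hL)) ∧
    Nat.card (shaFin (fun q : S => L.decHom q.1) (Lim.lev A L hL) →+ groupCohomology (D.C L) 2) =
      Nat.card (shaFin (fun q : S => L.decHom q.1) (Lim.lev A L hL)) := by
  letI : Fintype L.Gal := Fintype.ofFinite _
  haveI : (Level.relGal h).Normal := MonoidHom.normal_ker _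
  choose γX hγX using fun q : S => hLoc.1 S L q.1
  exact @alg8 p hp L.Gal _ _ (Lim.lev A L hL) (D.C L) (D.γ L) hAfin hAp (hD.gd1 L hμ) hT
    (Level.relGal h) _ (Fintype.ofFinite _) (relGal_triv A h hL₀ hL) hnorm
    S _ (fun q => L.Dec q.1) _ _ (fun q => L.decHom q.1) (fun q => L.decHom_injective q.1)
    (fun q => L.locUnits q.1) γX (fun q => D.j L q.1) hγX
    (fun q y => hD.gd3 L hμ q.1 q.2 y)

/-- **LIM3, first half**: `T_L` is finite and `|T_L| = |Ш¹_fin(L)|`. -/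
theorem card_TL {p : ℕ} (hp : p.Prime) (hD : D.IsGoodMu p) (hT : TateNakayamaAtSpec)
    (hLoc : LocalSpec p) (hAfin : Finite A.V) (hAp : ∀ a : A.V, p • a = 0)
    {L₀ L : Level S} (h : L₀ ≤ L) (hL₀ : ∀ s ∈ L₀.U, A.ρ s = 1) (hL : ∀ s ∈ L.U, A.ρ s = 1)
    (hμ : L.HasMu p)
    (hnorm : @NormInP p L.Gal _ (Level.relGal h) (Fintype.ofFinite _) (D.C L)) :
    Finite (TL D A L hL) ∧
      Nat.card (TL D A L hL) =
        Nat.card (shaFin (fun q : S => L.decHom q.1) (Lim.lev A L hL)) := by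
  obtain ⟨ha, hb, hfin, hcard⟩ := alg8_TL A hp hD hT hLoc hAfin hAp h hL₀ hL hμ hnorm
  exact card_TQ_of hp (fun q : S => L.decHom q.1) hAp (fun q : S => L.locUnits q.1)
    (fun q : S => D.j L q.1) ha hb hfin hcard

/-- Inflation preserves local triviality in the tower. -/
theorem isLocTriv_infTL {L L' : Level S} (h : L ≤ L') (hL : ∀ s ∈ L.U, A.ρ s = 1)
    (x : groupCohomology (Lim.lev A L hL) 1)
    (hx : IsLocTriv (fun q : S => L.decHom q.1) (Lim.lev A L hL) x) :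
    IsLocTriv (fun q : S => L'.decHom q.1) (Lim.lev A L' (Lim.triv_of_le A h hL))
      ((groupCohomology.map (Level.proj h) (Lim.levIso A h hL).inv 1).hom x) :=
  isLocTriv_inf (Level.proj h) (Lim.levIso A h hL) (fun q : S => L.decHom q.1)
    (fun q : S => L'.decHom q.1) (fun q : S => Level.projDec h q.1)
    (fun q d => (Level.proj_decHom h q.1 d).symm) x hx

/-- **LIM3, second half**: the transition maps of `T` are injective. -/
theorem trTL_injective {p : ℕ} (hp : p.Prime) (hD : D.IsGoodMu p) (hT : TateNakayamaAtSpec)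
    (hLoc : LocalSpec p) (hAfin : Finite A.V) (hAp : ∀ a : A.V, p • a = 0)
    {L₀ L L' : Level S} (h₀ : L₀ ≤ L) (h : L ≤ L') (hL₀ : ∀ s ∈ L₀.U, A.ρ s = 1)
    (hL : ∀ s ∈ L.U, A.ρ s = 1) (hμ : L.HasMu p)
    (hnorm : @NormInP p L.Gal _ (Level.relGal h₀) (Fintype.ofFinite _) (D.C L))
    (hnorm' : @NormInP p L'.Gal _ (Level.relGal (h₀.trans h)) (Fintype.ofFinite _) (D.C L')) :
    Function.Injective (trTL A (trCompat_of hD) h hL) := by
  obtain ⟨ha, -, -, -⟩ := alg8_TL A hp hD hT hLoc hAfin hAp h₀ hL₀ hL hμ hnorm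
  obtain ⟨ha', -, -, -⟩ := alg8_TL A hp hD hT hLoc hAfin hAp (h₀.trans h) hL₀
    (Lim.triv_of_le A h hL) (hμ.mono h) hnorm'
  exact trT_injective (Level.proj h) (Lim.levIso A h hL) (fun q : S => L.decHom q.1)
    (fun q : S => L'.decHom q.1) (D.tr h) (fun q : S => D.j L q.1) (fun q : S => D.j L' q.1)
    (fun q : S => Level.trJ h q.1) hAp (sqTL (trCompat_of hD) h)
    (fun f hf => (ha f).1 hf) (fun f' hf' => (ha' f').2 hf')
    (isLocTriv_infTL A h hL) (fun z hz hz0 => hD.gd8 h hμ z hz hz0)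

/-! ## The packaged system `T` over the levels `≥ L₁` -/

/-- A base of the `T`-system: a level `L₀ ⊇ μ_p` trivialising `A`, and a level `L₁ ≥ L₀` above
which the norms from `Gal(F/L₀)` are `p`-th multiples of invariants (GD6). -/
structure TBase (D : TowerDatum S) (A : Rep.{0} ℤ GQ) (p : ℕ) where
  /-- the base level -/
  L₀ : Level S
  /-- the level of GD6 -/
  L₁ : Level S
  le : L₀ ≤ L₁
  hμ : L₀.HasMu p
  triv : ∀ s ∈ L₀.U, A.ρ s = 1
  norm : ∀ (L : Level S) (h : L₀ ≤ L), L₁ ≤ L →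
    @NormInP p L.Gal _ (Level.relGal h) (Fintype.ofFinite _) (D.C L)

/-- A base exists over every level `L₀ ⊇ μ_p` trivialising `A` (GD6). -/
theorem nonempty_tBase {p : ℕ} (hD : D.IsGoodMu p) (L₀ : Level S) (hμ : L₀.HasMu p)
    (triv : ∀ s ∈ L₀.U, A.ρ s = 1) : ∃ B : TBase D A p, B.L₀ = L₀ := by
  obtain ⟨L₁, hle, hnorm⟩ := hD.gd6 L₀ hμ
  exact ⟨⟨L₀, L₁, hle, hμ, triv, hnorm⟩, rfl⟩

namespace TBase

variable {A} {p : ℕ} (B : TBase D A p)

/-- The base with a higher `L₁`. -/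
def raise (L₁' : Level S) (h : B.L₁ ≤ L₁') : TBase D A p where
  L₀ := B.L₀
  L₁ := L₁'
  le := B.le.trans h
  hμ := B.hμ
  triv := B.triv
  norm L h₀ h₁ := B.norm L h₀ (h.trans h₁)

/-- The index set of the system: the levels `≥ L₁`. -/
abbrev Idx : Type := {L : Level S // B.L₁ ≤ L}

lemma le₀ (L : B.Idx) : B.L₀ ≤ L.1 := B.le.trans L.2

lemma trivL (L : B.Idx) : ∀ s ∈ L.1.U, A.ρ s = 1 := Lim.triv_of_le A (B.le₀ L) B.triv

lemma hasMu (L : B.Idx) : L.1.HasMu p := B.hμ.mono (B.le₀ L)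

/-- **The system `T`** of blueprint §4, over the levels `≥ L₁`. -/
def sys (hD : D.IsGoodMu p) : AddSys B.Idx where
  obj L := TL D A L.1 (B.trivL L)
  grp _ := inferInstance
  tr {i j} h := trTL A (trCompat_of hD) (show i.1 ≤ j.1 from h) (B.trivL i)
  tr_tr {i j k} hij hjk x :=
    trTL_trTL A (trCompat_of hD) (fun h h' c => hD.gd7b h h' c)
      (show i.1 ≤ j.1 from hij) (show j.1 ≤ k.1 from hjk) (B.trivL i) x

/-- Ш¹ at the finite level `L` (`ℤ`-coefficients, decomposition groups at `q ∈ S`). -/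
abbrev sha (L : B.Idx) : AddSubgroup (groupCohomology (Lim.lev A L.1 (B.trivL L)) 1) :=
  shaFin (fun q : S => L.1.decHom q.1) (Lim.lev A L.1 (B.trivL L))

/-- **LIM3 (count)**: `T_L` is finite and `|T_L| = |Ш¹_fin(L)|` for every `L ≥ L₁`. -/
theorem sys_card (hp : p.Prime) (hD : D.IsGoodMu p) (hT : TateNakayamaAtSpec)
    (hLoc : LocalSpec p) (hAfin : Finite A.V) (hAp : ∀ a : A.V, p • a = 0) (L : B.Idx) :
    Finite ((B.sys hD).obj L) ∧ Nat.card ((B.sys hD).obj L) = Nat.card (B.sha L) :=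
  card_TL A hp hD hT hLoc hAfin hAp (B.le₀ L) B.triv (B.trivL L) (B.hasMu L)
    (B.norm L.1 (B.le₀ L) L.2)

/-- **LIM3 (injectivity)**: the transition maps of `T` are injective. -/
theorem sys_tr_injective (hp : p.Prime) (hD : D.IsGoodMu p) (hT : TateNakayamaAtSpec)
    (hLoc : LocalSpec p) (hAfin : Finite A.V) (hAp : ∀ a : A.V, p • a = 0) {i j : B.Idx}
    (h : i ≤ j) : Function.Injective ((B.sys hD).tr h) :=
  trTL_injective A hp hD hT hLoc hAfin hAp (B.le₀ i) (show i.1 ≤ j.1 from h) B.triv (B.trivL i)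
    (B.hasMu i) (B.norm i.1 (B.le₀ i) i.2) (B.norm j.1 ((B.le₀ i).trans h) j.2)

/-- The cardinalities of `Ш¹_fin(L)` are nondecreasing along the tower above `L₁`. -/
theorem card_sha_le (hp : p.Prime) (hD : D.IsGoodMu p) (hT : TateNakayamaAtSpec)
    (hLoc : LocalSpec p) (hAfin : Finite A.V) (hAp : ∀ a : A.V, p • a = 0) {i j : B.Idx}
    (h : i ≤ j) : Nat.card (B.sha i) ≤ Nat.card (B.sha j) := by
  obtain ⟨-, hi⟩ := B.sys_card hp hD hT hLoc hAfin hAp i
  obtain ⟨hfin, hj⟩ := B.sys_card hp hD hT hLoc hAfin hAp j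
  rw [← hi, ← hj]
  exact Nat.card_le_card_of_injective _ (B.sys_tr_injective hp hD hT hLoc hAfin hAp h)

/-- If `|Ш¹_fin(L)| = s` for all `L ≥ L₁`, the system `T` has constant cardinality `s` and
injective (hence bijective) transition maps: the hypotheses `hT_card`, `hT_inj` of
`E1.card_colim_eq`. -/
theorem sys_card_const (hp : p.Prime) (hD : D.IsGoodMu p) (hT : TateNakayamaAtSpec)
    (hLoc : LocalSpec p) (hAfin : Finite A.V) (hAp : ∀ a : A.V, p • a = 0) (s : ℕ)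
    (hs : ∀ L : B.Idx, Nat.card (B.sha L) = s) (L : B.Idx) :
    Nat.card ((B.sys hD).obj L) = s :=
  ((B.sys_card hp hD hT hLoc hAfin hAp L).2).trans (hs L)

end TBase

end

end Fermat.Agent.S55.E1.H957
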