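/-
S55 → S56 adapter (helper957): **Theorem D of the PT layer from the engine E1.**

`PT.TheoremDSpec p S` (`Ш²(M) ≃ Dual Ш¹(M′)` for every finite-dimensional uniformly smooth `M`,
PT vocabulary; consumed by S56: `Euler/Big/H2F*`, `Euler/H726/Sha2`) follows from the conclusion
`DimEq` of the engine E1, WITHOUT the route-C′ inputs (no `CapSpec`, `InvSpec`, `Surj2GlobSpec`):
* `isAdmissible_of_isUSmooth` : uniformly smooth (PT) ⇒ the hypotheses of the frozen S55;
* `nonempty_equiv_of_dimEq`   : `DimEq S M` ⇒ `Nonempty (Sha2 ≃ₗ Dual Sha1)`;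
* `theoremD_of_engine : EngineSpecFin → GlobalInputSpec → ∀ odd p ∈ S, PT.TheoremDSpec p S`;
* `theoremD_of_globalInput : GlobalInputSpec → …` (with `E1.Lim.engineSpecFin`).
-/
import Fermat.Agent.S55.E1.Inputs
import Fermat.Agent.S55.E1.Lim.Engine
import Fermat.Agent.S55.PT.BridgeH724
import Fermat.Agent.S55.PT.Spec

set_option autoImplicit false

open CategoryTheory Module groupCohomology ExtCitation

namespace Fermat.Agent.S55.E1.H957

open Fermat.Agent.S55 Fermat.Agent.S55.E1 Fermat.Agent.S55.Tow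

/-- Uniformly smooth for the levels unramified outside `S` ⇒ the hypotheses of the frozen S55. -/
theorem isAdmissible_of_isUSmooth {p : ℕ} [Fact p.Prime] (S : Finset Nat.Primes)
    (M : Rep.{0, 0, 0} (ZMod p) (AlgebraicClosure ℚ ≃ₐ[ℚ] AlgebraicClosure ℚ))
    (h : (PT.globalLevels S).IsUSmooth M) : IsAdmissible S M := by
  obtain ⟨U, ⟨F, hF, rfl⟩, hU⟩ := h
  refine ⟨fun m => ⟨F, hF.1, fun s hs => hU s hs m⟩, fun q hq A hA g hg => ?_⟩
  refine LinearMap.ext fun m => ?_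
  exact hU g (hF.2 q hq A hA hg) m

/-- `DimEq S M` ⇒ `Ш²(M) ≃ Dual Ш¹(M′)` in PT vocabulary. -/
theorem nonempty_equiv_of_dimEq {p : ℕ} [Fact p.Prime] (hp2 : p ≠ 2) (S : Finset Nat.Primes)
    (M : Rep.{0, 0, 0} (ZMod p) (AlgebraicClosure ℚ ≃ₐ[ℚ] AlgebraicClosure ℚ))
    (h : DimEq S M) :
    Nonempty (↥(PT.Sha2 (PT.hrl S) M) ≃ₗ[ZMod p]
      Module.Dual (ZMod p) ↥(PT.Sha1 (PT.hrl S) (PT.tdual p M))) := by
  obtain ⟨h1, h2, h3⟩ := h
  have h2' : (2 : ZMod p) ≠ 0 := Fermat.Agent.S55.Bridge.two_ne_zero_zmod hp2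
  let e₂ := PT.H724.sha2Equiv S M h2'
  let e₁ := PT.H724.sha1Equiv S h2' (M.dualTwist (cycloChar p))
  have := h1
  have := h2
  have hd : finrank (ZMod p) ↥(sha₂ S M) =
      finrank (ZMod p) (Module.Dual (ZMod p) ↥(sha₁ S (M.dualTwist (cycloChar p)))) := by
    rw [Subspace.dual_finrank_eq, h3]
  have e : ↥(sha₂ S M) ≃ₗ[ZMod p]
      Module.Dual (ZMod p) ↥(sha₁ S (M.dualTwist (cycloChar p))) :=
    LinearEquiv.ofFinrankEq _ _ hd
  exact ⟨e₂.trans (e.trans e₁.dualMap)⟩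

/-- **Theorem D (PT layer) from the engine E1 and the global input.** -/
theorem theoremD_of_engine (hE : EngineSpecFin) (hG : GlobalInputSpec)
    (p : ℕ) [Fact p.Prime] (hp2 : p ≠ 2) (S : Finset Nat.Primes) (hpS : pPrime p ∈ S) :
    PT.TheoremDSpec p S := by
  intro M hMfd hsm
  have := hMfd
  obtain ⟨hT, hrest⟩ := inputsSpecFin_of hG
  obtain ⟨hG', hL, hU, hF⟩ := hrest p hp2 S hpS
  exact nonempty_equiv_of_dimEq hp2 S M
    (hE p hp2 S hpS hT hG' hL hU hF M (isAdmissible_of_isUSmooth S M hsm))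

/-- **Theorem D (PT layer) from the global input alone** (the engine is closed on main). -/
theorem theoremD_of_globalInput (hG : GlobalInputSpec)
    (p : ℕ) [Fact p.Prime] (hp2 : p ≠ 2) (S : Finset Nat.Primes) (hpS : pPrime p ∈ S) :
    PT.TheoremDSpec p S :=
  theoremD_of_engine Lim.engineSpecFin hG p hp2 S hpS

end Fermat.Agent.S55.E1.H957
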